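import Mathlib
import Fermat.Agent.LT.H11.LC

/-!
# Row LT, tower A2, leaf A2.03.2 TORUS-OPEN (helper426) -- local part

OFF-MAIN.  Mathlib + `LT/H11/LC.lean` (helper11, byte-identical copy) only; complete proofs.

* `sq_open_inf426`, `sq_open_fin426` : squaring is open at `1` in every completion of a number field
  (inverse function theorem);
* `exists_sq_eq_of_odd426` : Hensel for squares at an odd place (Newton + compactness of `𝒪_v`);
* `exists_norm_eq_of_good426` : at a good place (`v ∤ 2`, `t`, `n` integral, discriminant a unit) the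
  norm form `a² + t a b + n b²` represents every unit integrally;
* `LocSol426`, `locSol_special426`, `locSol_good426` : the local solutions used by the global
  assembly; `finite_valuation_ne_one426`, `finite_valuation_not_le_one426`.
-/

set_option autoImplicit false
set_option linter.style.haveILetI false
set_option linter.unusedSectionVars false

open IsDedekindDomain NumberField
open scoped Valued Topology

noncomputable section

namespace Fermat.Agent.LT.A2.H426

/-- Squaring is open at `1` in a complete nontrivially normed field of characteristic `≠ 2`. -/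
theorem sq_image_mem_nhds_one426 {𝕜 : Type*} [NontriviallyNormedField 𝕜] [CompleteSpace 𝕜]
    (h2 : (2 : 𝕜) ≠ 0) {N : Set 𝕜} (hN : N ∈ 𝓝 (1 : 𝕜)) :
    (fun x : 𝕜 => x ^ 2) '' N ∈ 𝓝 (1 : 𝕜) := by
  have hd : HasStrictDerivAt (fun x : 𝕜 => x ^ 2) (((2 : ℕ) : 𝕜) * (1 : 𝕜) ^ (2 - 1)) 1 :=
    hasStrictDerivAt_pow 2 (1 : 𝕜)
  have hne : (((2 : ℕ) : 𝕜) * (1 : 𝕜) ^ (2 - 1)) ≠ 0 := by
    simpa using h2
  have h := hd.map_nhds_eq hne
  have h1 : 𝓝 ((1 : 𝕜) ^ 2) = 𝓝 (1 : 𝕜) := by rw [one_pow]
  rw [← h1, ← h]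
  exact Filter.image_mem_map hN

section Inf
variable (K : Type) [Field K] [NumberField K] (w : InfinitePlace K)

theorem two_ne_zero_inf426 : (2 : w.Completion) ≠ 0 := by
  have : CharZero w.Completion := by
    exact charZero_of_injective_algebraMap (algebraMap K w.Completion).injective
  exact two_ne_zero

theorem norm_two_inf426 : ‖(2 : w.Completion)‖ = 2 := by
  have h := (InfinitePlace.Completion.isometry_extensionEmbedding w).norm_map_of_map_zero
    (map_zero _) (2 : w.Completion)
  rw [← h, map_ofNat]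
  simp

theorem sq_open_inf426 {N : Set w.Completion} (hN : N ∈ 𝓝 (1 : w.Completion)) :
    ∃ N' ∈ 𝓝 (1 : w.Completion), ∀ y ∈ N', ∃ z ∈ N, z ^ 2 = y := by
  let _i : NontriviallyNormedField w.Completion :=
    NontriviallyNormedField.ofNormNeOne ⟨(2 : w.Completion), two_ne_zero_inf426 K w, by
      rw [norm_two_inf426]; norm_num⟩
  refine ⟨_, sq_image_mem_nhds_one426 (two_ne_zero_inf426 K w) hN, ?_⟩
  rintro y ⟨z, hz, rfl⟩
  exact ⟨z, hz, rfl⟩

end Inf

section Fin
variable (K : Type) [Field K] [NumberField K] (v : HeightOneSpectrum (𝓞 K))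

theorem two_ne_zero_fin426 : (2 : v.adicCompletion K) ≠ 0 := by
  have : CharZero (v.adicCompletion K) := by
    exact charZero_of_injective_algebraMap (algebraMap K (v.adicCompletion K)).injective
  exact two_ne_zero

theorem sq_open_fin426 {N : Set (v.adicCompletion K)} (hN : N ∈ 𝓝 (1 : v.adicCompletion K)) :
    ∃ N' ∈ 𝓝 (1 : v.adicCompletion K), ∀ y ∈ N', ∃ z ∈ N, z ^ 2 = y := by
  refine ⟨_, sq_image_mem_nhds_one426 (two_ne_zero_fin426 K v) hN, ?_⟩
  rintro y ⟨z, hz, rfl⟩
  exact ⟨z, hz, rfl⟩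

end Fin

section Fin
variable (K : Type) [Field K] [NumberField K] (v : HeightOneSpectrum (𝓞 K))

/-- Newton approximation of a square root of `y ≡ 1` at an odd place. -/
theorem newton_sq426 (h2 : Valued.v (2 : v.adicCompletion K) = 1) (y : v.adicCompletion K)
    (hy : Valued.v (y - 1) < 1) (k : ℕ) :
    ∃ z : v.adicCompletion K, Valued.v z = 1 ∧
      Valued.v (z ^ 2 - y) ≤ Valued.v ((y - 1) ^ (k + 1)) := by
  induction k with
  | zero =>
    refine ⟨1, by simp, ?_⟩
    rw [one_pow, zero_add, pow_one, Valuation.map_sub_swap]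
  | succ k ih =>
    obtain ⟨z, hz1, hze⟩ := ih
    have hz0 : z ≠ 0 := by
      intro h
      rw [h, map_zero] at hz1
      exact zero_ne_one hz1
    have h20 : (2 : v.adicCompletion K) ≠ 0 := by
      intro h
      rw [h, map_zero] at h2
      exact zero_ne_one h2
    have hr1 : Valued.v ((y - 1) ^ (k + 1)) < 1 := by
      rw [map_pow]
      exact pow_lt_one₀ zero_le hy (Nat.succ_ne_zero k)
    have he : Valued.v (z ^ 2 - y) < 1 := lt_of_le_of_lt hze hr1
    have hv2z : Valued.v (2 * z) = 1 := by rw [map_mul, h2, hz1, one_mul]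
    refine ⟨z - (z ^ 2 - y) / (2 * z), ?_, ?_⟩
    · have hlt : Valued.v ((z ^ 2 - y) / (2 * z)) < Valued.v z := by
        rw [map_div₀, hv2z, div_one, hz1]
        exact he
      rw [Valuation.map_sub_eq_of_lt_left _ hlt, hz1]
    · have key : (z - (z ^ 2 - y) / (2 * z)) ^ 2 - y = (z ^ 2 - y) ^ 2 / (2 * z) ^ 2 := by
        field_simp
        ring
      rw [key, map_div₀, map_pow, map_pow, hv2z, one_pow, div_one]
      have h1 : Valued.v (z ^ 2 - y) ^ 2 ≤ Valued.v ((y - 1) ^ (k + 1)) ^ 2 :=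
        pow_le_pow_left₀ zero_le hze 2
      refine le_trans h1 ?_
      rw [map_pow, map_pow, ← pow_mul]
      exact pow_le_pow_of_le_one zero_le hy.le (by omega)

/-- Hensel for squares at an odd place: every `y ≡ 1` is the square of a unit. -/
theorem exists_sq_eq_of_odd426 (h2 : Valued.v (2 : v.adicCompletion K) = 1)
    (y : v.adicCompletion K) (hy : Valued.v (y - 1) < 1) :
    ∃ z : v.adicCompletion K, Valued.v z ≤ 1 ∧ z ^ 2 = y := by
  have hcomp : IsCompact ((fun z : v.adicCompletion K => z ^ 2) ''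
      (v.adicCompletionIntegers K : Set (v.adicCompletion K))) :=
    (Fermat.Agent.LT.H11.LC.isCompact_integers_h11 K v).image (by fun_prop)
  have hcl := hcomp.isClosed
  have hmem : y ∈ closure ((fun z : v.adicCompletion K => z ^ 2) ''
      (v.adicCompletionIntegers K : Set (v.adicCompletion K))) := by
    rw [Metric.mem_closure_iff]
    intro ε hε
    have hn1 : ‖y - 1‖ < 1 := Valued.toNormedField.norm_lt_one_iff.2 hy
    obtain ⟨n, hn⟩ := exists_pow_lt_of_lt_one hε hn1
    obtain ⟨z, hz1, hz⟩ := newton_sq426 K v h2 y hy n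
    refine ⟨z ^ 2, ⟨z, ?_, rfl⟩, ?_⟩
    · exact (HeightOneSpectrum.mem_adicCompletionIntegers (𝓞 K) K v).2 hz1.le
    · rw [dist_comm, dist_eq_norm]
      have h3 : ‖z ^ 2 - y‖ ≤ ‖(y - 1) ^ (n + 1)‖ := Valued.toNormedField.norm_le_iff.2 hz
      rw [norm_pow] at h3
      refine lt_of_le_of_lt h3 (lt_of_le_of_lt ?_ hn)
      exact pow_le_pow_of_le_one (norm_nonneg _) hn1.le (Nat.le_succ n)
  rw [hcl.closure_eq] at hmem
  obtain ⟨z, hz, hzy⟩ := hmem
  exact ⟨z, (HeightOneSpectrum.mem_adicCompletionIntegers (𝓞 K) K v).1 hz, hzy⟩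

end Fin

/-- A nondegenerate binary quadratic form over a finite field of odd characteristic represents
every element. -/
theorem finite_field_binary426 {k : Type*} [Field k] [Finite k] (h2 : (2 : k) ≠ 0)
    (t n u : k) (hd : t ^ 2 - 4 * n ≠ 0) :
    ∃ a b : k, a ^ 2 + t * a * b + n * b ^ 2 = u := by
  classical
  haveI : Fintype k := Fintype.ofFinite k
  have hchar : ringChar k ≠ 2 := by
    intro h
    have h0 : ((ringChar k : ℕ) : k) = 0 := ringChar.Nat.cast_ringChar
    rw [h] at h0
    exact h2 (by exact_mod_cast h0)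
  have hodd : Fintype.card k % 2 = 1 := FiniteField.odd_card_of_char_ne_two hchar
  have h4 : (4 : k) ≠ 0 := by
    have : (4 : k) = 2 * 2 := by norm_num
    rw [this]
    exact mul_ne_zero h2 h2
  set D : k := n - t ^ 2 / 4 with hD
  have hD0 : D ≠ 0 := by
    intro h
    apply hd
    have : t ^ 2 - 4 * n = -4 * D := by
      rw [hD]; field_simp; ring
    rw [this, h, mul_zero]
  have hf : (Polynomial.C (1 : k) * Polynomial.X ^ 2 + Polynomial.C 0 * Polynomial.X
      + Polynomial.C 0 : Polynomial k).degree = 2 := Polynomial.degree_quadratic one_ne_zero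
  have hg : (Polynomial.C D * Polynomial.X ^ 2 + Polynomial.C 0 * Polynomial.X
      + Polynomial.C (-u) : Polynomial k).degree = 2 := Polynomial.degree_quadratic hD0
  obtain ⟨a', b', hab⟩ := FiniteField.exists_root_sum_quadratic hf hg hodd
  simp only [Polynomial.eval_add, Polynomial.eval_mul, Polynomial.eval_C, Polynomial.eval_pow,
    Polynomial.eval_X, one_mul, zero_mul, add_zero] at hab
  refine ⟨a' - t * b' / 2, b', ?_⟩
  have : (a' - t * b' / 2) ^ 2 + t * (a' - t * b' / 2) * b' + n * b' ^ 2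
      = a' ^ 2 + D * b' ^ 2 := by
    rw [hD]; field_simp; ring
  rw [this]
  linear_combination hab

section Fin
variable (K : Type) [Field K] [NumberField K] (v : HeightOneSpectrum (𝓞 K))

/-- At a good place the norm form represents every unit integrally. -/
theorem exists_norm_eq_of_good426 (t n : v.adicCompletion K)
    (h2 : Valued.v (2 : v.adicCompletion K) = 1) (ht : Valued.v t ≤ 1) (hn : Valued.v n ≤ 1)
    (hd : Valued.v (t ^ 2 - 4 * n) = 1) (u : v.adicCompletion K) (hu : Valued.v u = 1) :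
    ∃ a b : v.adicCompletion K, Valued.v a ≤ 1 ∧ Valued.v b ≤ 1 ∧
      a ^ 2 + t * a * b + n * b ^ 2 = u := by
  haveI : Finite (IsLocalRing.ResidueField (v.adicCompletionIntegers K)) :=
    Fermat.Agent.LT.H11.LC.finite_residueField_h11 K v
  have memO : ∀ x : v.adicCompletion K, Valued.v x ≤ 1 → x ∈ v.adicCompletionIntegers K :=
    fun x hx => (HeightOneSpectrum.mem_adicCompletionIntegers (𝓞 K) K v).2 hx
  -- residue map and nonvanishing criterion
  have res0 : ∀ x : v.adicCompletionIntegers K,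
      IsLocalRing.residue (v.adicCompletionIntegers K) x = 0 ↔
        Valued.v (x : v.adicCompletion K) < 1 := by
    intro x
    rw [IsLocalRing.residue_eq_zero_iff, Fermat.Agent.LT.H11.LC.mem_maximalIdeal_iff_h11]
  set tO : v.adicCompletionIntegers K := ⟨t, memO t ht⟩ with htO
  set nO : v.adicCompletionIntegers K := ⟨n, memO n hn⟩ with hnO
  set uO : v.adicCompletionIntegers K := ⟨u, memO u hu.le⟩ with huO
  have htc : (tO : v.adicCompletion K) = t := rfl
  have hnc : (nO : v.adicCompletion K) = n := rfl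
  have huc : (uO : v.adicCompletion K) = u := rfl
  set res := IsLocalRing.residue (v.adicCompletionIntegers K) with hres
  have hres2 : (2 : IsLocalRing.ResidueField (v.adicCompletionIntegers K)) ≠ 0 := by
    have h : res (1 + 1 : v.adicCompletionIntegers K) ≠ 0 := by
      rw [Ne, res0]
      have e : (((1 + 1 : v.adicCompletionIntegers K)) : v.adicCompletion K) = 2 := by
        push_cast; norm_num
      rw [e, h2]
      exact lt_irrefl _
    rw [map_add, map_one] at h
    intro h'
    apply h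
    rw [← h']
    norm_num
  have hresd : (res tO) ^ 2 - 4 * res nO ≠ 0 := by
    have h : res (tO ^ 2 - (1 + 1 + 1 + 1) * nO) ≠ 0 := by
      rw [Ne, res0]
      have e : ((tO ^ 2 - (1 + 1 + 1 + 1) * nO : v.adicCompletionIntegers K) :
          v.adicCompletion K) = t ^ 2 - 4 * n := by
        push_cast; rw [htc, hnc]; norm_num
      rw [e, hd]
      exact lt_irrefl _
    rw [map_sub, map_mul, map_pow, map_add, map_add, map_add, map_one] at h
    intro h'
    apply h
    rw [← h']
    norm_num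
  obtain ⟨a', b', hab⟩ := finite_field_binary426 hres2 (res tO) (res nO) (res uO) hresd
  obtain ⟨a₀, rfl⟩ := IsLocalRing.residue_surjective a'
  obtain ⟨b₀, rfl⟩ := IsLocalRing.residue_surjective b'
  have hq : Valued.v ((a₀ : v.adicCompletion K) ^ 2 + t * a₀ * b₀ + n * (b₀ : v.adicCompletion K) ^ 2 - u) < 1 := by
    have h : res (a₀ ^ 2 + tO * a₀ * b₀ + nO * b₀ ^ 2 - uO) = 0 := by
      rw [map_sub, map_add, map_add, map_mul, map_mul, map_mul, map_pow, map_pow, sub_eq_zero]
      exact hab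
    rw [res0] at h
    have e : ((a₀ ^ 2 + tO * a₀ * b₀ + nO * b₀ ^ 2 - uO : v.adicCompletionIntegers K) :
        v.adicCompletion K)
        = (a₀ : v.adicCompletion K) ^ 2 + t * a₀ * b₀ + n * (b₀ : v.adicCompletion K) ^ 2 - u := by
      push_cast; rw [htc, hnc, huc]
    rwa [e] at h
  set q₀ : v.adicCompletion K := (a₀ : v.adicCompletion K) ^ 2 + t * a₀ * b₀ + n * (b₀ : v.adicCompletion K) ^ 2 with hq₀
  have hq1 : Valued.v q₀ = 1 := by
    have : q₀ = u + (q₀ - u) := by ring
    rw [this, Valuation.map_add_eq_of_lt_left _ (by rw [hu]; exact hq), hu]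
  have hq0 : q₀ ≠ 0 := by
    intro h
    rw [h, map_zero] at hq1
    exact zero_ne_one hq1
  have hy : Valued.v (u / q₀ - 1) < 1 := by
    have : u / q₀ - 1 = -(q₀ - u) / q₀ := by field_simp; ring
    rw [this, map_div₀, hq1, div_one, Valuation.map_neg]
    exact hq
  obtain ⟨z, hz1, hz⟩ := exists_sq_eq_of_odd426 K v h2 (u / q₀) hy
  have ha₀ : Valued.v (a₀ : v.adicCompletion K) ≤ 1 :=
    (HeightOneSpectrum.mem_adicCompletionIntegers (𝓞 K) K v).1 a₀.2
  have hb₀ : Valued.v (b₀ : v.adicCompletion K) ≤ 1 :=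
    (HeightOneSpectrum.mem_adicCompletionIntegers (𝓞 K) K v).1 b₀.2
  refine ⟨z * a₀, z * b₀, ?_, ?_, ?_⟩
  · rw [map_mul]; exact mul_le_one' hz1 ha₀
  · rw [map_mul]; exact mul_le_one' hz1 hb₀
  · have : (z * (a₀ : v.adicCompletion K)) ^ 2 + t * (z * a₀) * (z * b₀) + n * (z * (b₀ : v.adicCompletion K)) ^ 2
        = z ^ 2 * q₀ := by rw [hq₀]; ring
    rw [this, hz]
    field_simp

end Fin

/-- The four entries of `torMat t n a b - 1` lie in `T`. -/
def Ent426 {F : Type*} [CommRing F] (T : Set F) (t n a b : F) : Prop :=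
  a - 1 ∈ T ∧ -(n * b) ∈ T ∧ b ∈ T ∧ a + t * b - 1 ∈ T

/-- Local solution: `(a, b)` has norm `u`, and the entries of the torus element and of its inverse
are `T`-close to the identity. -/
def LocSol426 {F : Type*} [Field F] (T : Set F) (t n u a b : F) : Prop :=
  a * (a + t * b) + n * b * b = u ∧ Ent426 T t n a b ∧
    Ent426 T t n ((a + t * b) * u⁻¹) (-(b * u⁻¹))

theorem LocSol426.mono {F : Type*} [Field F] {T T' : Set F} (h : T ⊆ T') {t n u a b : F}
    (hs : LocSol426 T t n u a b) : LocSol426 T' t n u a b :=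
  ⟨hs.1, ⟨h hs.2.1.1, h hs.2.1.2.1, h hs.2.1.2.2.1, h hs.2.1.2.2.2⟩,
    ⟨h hs.2.2.1, h hs.2.2.2.1, h hs.2.2.2.2.1, h hs.2.2.2.2.2⟩⟩

/-- The special local solution: a square root, `b = 0`. -/
theorem locSol_special426 {F : Type*} [Field F] [TopologicalSpace F] [IsTopologicalDivisionRing F]
    (hsq : ∀ N : Set F, N ∈ 𝓝 (1 : F) → ∃ N' ∈ 𝓝 (1 : F), ∀ y ∈ N', ∃ z ∈ N, z ^ 2 = y)
    (t n : F) {T : Set F} (hT : T ∈ 𝓝 (0 : F)) :
    ∃ Y ∈ 𝓝 (1 : F), ∀ u ∈ Y, ∃ a b : F, LocSol426 T t n u a b := by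
  have h0 : (0 : F) ∈ T := mem_of_mem_nhds hT
  have hZ : {z : F | z - 1 ∈ T ∧ z⁻¹ - 1 ∈ T} ∈ 𝓝 (1 : F) := by
    have h1 : ContinuousAt (fun z : F => z - 1) 1 := by fun_prop
    have h2 : ContinuousAt (fun z : F => z⁻¹ - 1) 1 :=
      (continuousAt_inv₀ one_ne_zero).sub continuousAt_const
    have m1 := h1.preimage_mem_nhds (t := T) (by simpa using hT)
    have m2 := h2.preimage_mem_nhds (t := T) (by simpa using hT)
    exact Filter.inter_mem m1 m2
  obtain ⟨Y, hY, hYz⟩ := hsq _ hZ
  refine ⟨Y, hY, fun u hu => ?_⟩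
  obtain ⟨z, ⟨hz1, hz2⟩, hzu⟩ := hYz u hu
  refine ⟨z, 0, ?_, ⟨?_, ?_, ?_, ?_⟩, ⟨?_, ?_, ?_, ?_⟩⟩
  · rw [← hzu]; ring
  · exact hz1
  · simpa using h0
  · exact h0
  · simpa using hz1
  · have : (z + t * 0) * u⁻¹ = z⁻¹ := by
      rw [← hzu, mul_zero, add_zero]
      by_cases hz : z = 0
      · simp [hz]
      · field_simp
    rw [this]; exact hz2
  · simpa using h0
  · simpa using h0
  · have : (z + t * 0) * u⁻¹ + t * -(0 * u⁻¹) = z⁻¹ := by
      rw [← hzu, mul_zero, add_zero, zero_mul, neg_zero, mul_zero, add_zero]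
      by_cases hz : z = 0
      · simp [hz]
      · field_simp
    rw [this]; exact hz2

section Good
variable (K : Type) [Field K] [NumberField K]

/-- For `x ≠ 0` in `K` the valuation of `x` is `1` at almost all finite places. -/
theorem finite_valuation_ne_one426 (x : K) (hx : x ≠ 0) :
    {v : HeightOneSpectrum (𝓞 K) | Valued.v (algebraMap K (v.adicCompletion K) x) ≠ 1}.Finite := by
  have h1 := HeightOneSpectrum.Support.finite (𝓞 K) x
  have h2 := HeightOneSpectrum.Support.finite (𝓞 K) x⁻¹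
  refine (h1.union h2).subset ?_
  intro v hv
  have key : ∀ y : K, Valued.v (algebraMap K (v.adicCompletion K) y) = v.valuation K y :=
    fun y => HeightOneSpectrum.valuedAdicCompletion_eq_valuation' v y
  rw [Set.mem_ofPred_eq, key] at hv
  rcases lt_or_gt_of_ne hv with h | h
  · right
    show 1 < v.valuation K x⁻¹
    rw [map_inv₀]
    exact (one_lt_inv₀ (by
      rw [zero_lt_iff]
      exact (Valuation.ne_zero_iff _).2 hx)).2 h
  · left
    exact h

/-- The valuation of `x` is `≤ 1` at almost all finite places. -/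
theorem finite_valuation_not_le_one426 (x : K) :
    {v : HeightOneSpectrum (𝓞 K) | ¬ Valued.v (algebraMap K (v.adicCompletion K) x) ≤ 1}.Finite := by
  have h1 := HeightOneSpectrum.Support.finite (𝓞 K) x
  refine h1.subset ?_
  intro v hv
  have key : ∀ y : K, Valued.v (algebraMap K (v.adicCompletion K) y) = v.valuation K y :=
    fun y => HeightOneSpectrum.valuedAdicCompletion_eq_valuation' v y
  rw [Set.mem_ofPred_eq, key, not_le] at hv
  exact hv

end Good

section GoodSol
variable (K : Type) [Field K] [NumberField K] (v : HeightOneSpectrum (𝓞 K))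

/-- The local solution at a good place: integral, for every unit. -/
theorem locSol_good426 (t n : v.adicCompletion K)
    (h2 : Valued.v (2 : v.adicCompletion K) = 1) (ht : Valued.v t ≤ 1) (hn : Valued.v n ≤ 1)
    (hd : Valued.v (t ^ 2 - 4 * n) = 1) (u : v.adicCompletion K) (hu : Valued.v u = 1) :
    ∃ a b : v.adicCompletion K,
      LocSol426 (v.adicCompletionIntegers K : Set (v.adicCompletion K)) t n u a b := by
  obtain ⟨a, b, ha, hb, hab⟩ := exists_norm_eq_of_good426 K v t n h2 ht hn hd u hu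
  have memO : ∀ x : v.adicCompletion K, Valued.v x ≤ 1 → x ∈ v.adicCompletionIntegers K :=
    fun x hx => (HeightOneSpectrum.mem_adicCompletionIntegers (𝓞 K) K v).2 hx
  have hui : Valued.v u⁻¹ ≤ 1 := by
    rw [map_inv₀, hu, inv_one]
  have ma := memO a ha
  have mb := memO b hb
  have mt := memO t ht
  have mn := memO n hn
  have mu := memO _ hui
  have m1 : (1 : v.adicCompletion K) ∈ v.adicCompletionIntegers K := one_mem _
  refine ⟨a, b, ?_, ⟨?_, ?_, ?_, ?_⟩, ⟨?_, ?_, ?_, ?_⟩⟩
  · rw [← hab]; ring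
  · exact sub_mem ma m1
  · exact neg_mem (mul_mem mn mb)
  · exact mb
  · exact sub_mem (add_mem ma (mul_mem mt mb)) m1
  · exact sub_mem (mul_mem (add_mem ma (mul_mem mt mb)) mu) m1
  · exact neg_mem (mul_mem mn (neg_mem (mul_mem mb mu)))
  · exact neg_mem (mul_mem mb mu)
  · exact sub_mem (add_mem (mul_mem (add_mem ma (mul_mem mt mb)) mu)
      (mul_mem mt (neg_mem (mul_mem mb mu)))) m1

end GoodSol

end Fermat.Agent.LT.A2.H426

end
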