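import Mathlib
import Fermat.Agent.LT.A2.H426.LocalNorm

/-!
# Row LT, tower A2, leaf A2.03.2 TORUS-OPEN (helper426) -- global assembly

OFF-MAIN.  Mathlib + `LocalNorm.lean` only; complete proofs.

`torus_open_core426`: for a separable quadratic form `X² + t X Y + n Y²` over a number field `K`
(`t² - 4n ≠ 0`), every neighbourhood `V` of `1` in `GL₂(𝔸_K)` (units topology) contains, for every
idele `u` in a suitable neighbourhood of `1`, an element of the torus
`{[[a, -n b], [b, a + t b]]}` of determinant `u`.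

Proof: at the infinite places and at finitely many finite places (the places occurring in `V`,
the places over `2`, the places where `t`, `n` are not integral or the discriminant is not a unit)
take a square root of `u_v` close to `1` (`b_v = 0`); at all other places `u_v` is a unit and is
the norm of an integral element (`exists_norm_eq_of_good426`).
-/

set_option autoImplicit false
set_option linter.style.haveILetI false
set_option linter.unusedSectionVars false

open IsDedekindDomain NumberField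
open scoped Topology RestrictedProduct

noncomputable section

namespace Fermat.Agent.LT.A2.H426

/-- Neighbourhoods in a finite double product, in terms of entries. -/
theorem nhds_pi_pi426 {A : Type*} [CommRing A] [TopologicalSpace A] [IsTopologicalRing A]
    (c : Fin 2 → Fin 2 → A) {t : Set (Fin 2 → Fin 2 → A)} (ht : t ∈ 𝓝 c) :
    ∃ N₀ ∈ 𝓝 (0 : A), ∀ X : Fin 2 → Fin 2 → A,
      (∀ i j, X i j - c i j ∈ N₀) → X ∈ t := by
  rw [nhds_pi, Filter.mem_pi] at ht
  obtain ⟨I₁, -, T₁, hT₁, hsub₁⟩ := ht
  have h2 : ∀ i : Fin 2, ∃ T₂ : Fin 2 → Set A,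
      (∀ j, T₂ j ∈ 𝓝 (c i j)) ∧ Set.univ.pi T₂ ⊆ T₁ i := by
    intro i
    have := hT₁ i
    rw [nhds_pi, Filter.mem_pi] at this
    obtain ⟨I₂, -, T₂, hT₂, hsub₂⟩ := this
    exact ⟨T₂, hT₂, fun x hx => hsub₂ (fun j _ => hx j (Set.mem_univ j))⟩
  choose T₂ hT₂ hsub₂ using h2
  refine ⟨⋂ i : Fin 2, ⋂ j : Fin 2,
    (fun x : A => x + c i j) ⁻¹' (T₂ i j), ?_, ?_⟩
  · rw [Filter.iInter_mem]
    intro i
    rw [Filter.iInter_mem]
    intro j
    have hc : ContinuousAt (fun x : A => x + c i j) 0 := by
      fun_prop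
    apply hc.preimage_mem_nhds
    rw [zero_add]
    exact hT₂ i j
  · intro X hX
    apply hsub₁
    intro i _
    apply hsub₂ i
    intro j _
    have := hX i j
    rw [Set.mem_iInter] at this
    have := this i
    rw [Set.mem_iInter] at this
    have := this j
    simpa using this

/-- Neighbourhoods of `1` in a matrix ring over a topological ring, in terms of entries. -/
theorem nhds_one_matrix426 {A : Type*} [CommRing A] [TopologicalSpace A] [IsTopologicalRing A]
    {t : Set (Matrix (Fin 2) (Fin 2) A)} (ht : t ∈ 𝓝 (1 : Matrix (Fin 2) (Fin 2) A)) :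
    ∃ N₀ ∈ 𝓝 (0 : A), ∀ X : Matrix (Fin 2) (Fin 2) A,
      (∀ i j, X i j - (1 : Matrix (Fin 2) (Fin 2) A) i j ∈ N₀) → X ∈ t :=
  nhds_pi_pi426 (fun i j => (1 : Matrix (Fin 2) (Fin 2) A) i j) ht

/-- Neighbourhoods of `1` in `GL₂` (units topology), in terms of entries. -/
theorem nhds_one_GL426 {A : Type*} [CommRing A] [TopologicalSpace A] [IsTopologicalRing A]
    {V : Set (GL (Fin 2) A)} (hV : V ∈ 𝓝 (1 : GL (Fin 2) A)) :
    ∃ N₀ ∈ 𝓝 (0 : A), ∀ g : GL (Fin 2) A,
      (∀ i j, (g : Matrix (Fin 2) (Fin 2) A) i j - (1 : Matrix (Fin 2) (Fin 2) A) i j ∈ N₀) →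
      (∀ i j, ((g⁻¹ : GL (Fin 2) A) : Matrix (Fin 2) (Fin 2) A) i j
        - (1 : Matrix (Fin 2) (Fin 2) A) i j ∈ N₀) → g ∈ V := by
  have h1 : Filter.Tendsto (fun g : GL (Fin 2) A => (g : Matrix (Fin 2) (Fin 2) A)) (𝓝 1)
      (𝓝 (1 : Matrix (Fin 2) (Fin 2) A)) := by
    have := (Units.continuous_val (M := Matrix (Fin 2) (Fin 2) A)).tendsto 1
    simpa using this
  have hV' := hV
  rw [Units.isInducing_embedProduct.nhds_eq_comap, Filter.mem_comap] at hV'
  obtain ⟨s, hs, hsV⟩ := hV'
  have e1 : Units.embedProduct (Matrix (Fin 2) (Fin 2) A) 1 = (1, MulOpposite.op 1) := rfl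
  rw [e1, nhds_prod_eq, Filter.mem_prod_iff] at hs
  obtain ⟨s₁, hs₁, s₂, hs₂, hs12⟩ := hs
  have hs₂' : MulOpposite.op ⁻¹' s₂ ∈ 𝓝 (1 : Matrix (Fin 2) (Fin 2) A) :=
    (MulOpposite.continuous_op.continuousAt (x := (1 : Matrix (Fin 2) (Fin 2) A))).preimage_mem_nhds
      hs₂
  obtain ⟨N₁, hN₁, hN₁s⟩ := nhds_one_matrix426 hs₁
  obtain ⟨N₂, hN₂, hN₂s⟩ := nhds_one_matrix426 hs₂'
  refine ⟨N₁ ∩ N₂, Filter.inter_mem hN₁ hN₂, ?_⟩
  intro g hg hg'
  apply hsV
  apply hs12
  refine Set.mem_prod.2 ⟨?_, ?_⟩
  · exact hN₁s _ (fun i j => (hg i j).1)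
  · exact hN₂s _ (fun i j => (hg' i j).2)

section Glob
variable (K : Type) [Field K] [NumberField K]

/-- The adele ring. -/
abbrev Adl426 : Type := NumberField.AdeleRing (𝓞 K) K

/-- Projection to the completion at an infinite place. -/
def pI426 (w : InfinitePlace K) : Adl426 K →+* w.Completion :=
  (Pi.evalRingHom (fun w : InfinitePlace K => w.Completion) w).comp
    (RingHom.fst (InfiniteAdeleRing K) (FiniteAdeleRing (𝓞 K) K))

/-- Projection to the completion at a finite place. -/
def pF426 (v : HeightOneSpectrum (𝓞 K)) : Adl426 K →+* v.adicCompletion K :=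
  (RestrictedProduct.evalRingHom (fun v : HeightOneSpectrum (𝓞 K) => v.adicCompletion K) v).comp
    (RingHom.snd (InfiniteAdeleRing K) (FiniteAdeleRing (𝓞 K) K))

variable {K}

theorem pI426_apply (w : InfinitePlace K) (x : Adl426 K) : pI426 K w x = x.1 w := rfl
theorem pF426_apply (v : HeightOneSpectrum (𝓞 K)) (x : Adl426 K) : pF426 K v x = x.2 v := rfl

theorem continuous_pI426 (w : InfinitePlace K) : Continuous (pI426 K w) := by
  have h1 : Continuous (fun x : Adl426 K => x.1) := continuous_fst
  exact (continuous_apply w).comp h1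

theorem continuous_pF426 (v : HeightOneSpectrum (𝓞 K)) : Continuous (pF426 K v) := by
  have h1 : Continuous (fun x : Adl426 K => x.2) := continuous_snd
  exact (RestrictedProduct.continuous_eval v).comp h1

theorem adl_ext426 {x y : Adl426 K} (hI : ∀ w, pI426 K w x = pI426 K w y)
    (hF : ∀ v, pF426 K v x = pF426 K v y) : x = y := by
  refine Prod.ext (funext hI) ?_
  exact FiniteAdeleRing.ext K hF

theorem pI426_algebraMap (w : InfinitePlace K) (x : K) :
    pI426 K w (algebraMap K (Adl426 K) x) = algebraMap K w.Completion x := rfl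

theorem pF426_algebraMap (v : HeightOneSpectrum (𝓞 K)) (x : K) :
    pF426 K v (algebraMap K (Adl426 K) x) = algebraMap K (v.adicCompletion K) x := rfl

/-- Build an adele from its components. -/
def mkAdl426 (ai : ∀ w : InfinitePlace K, w.Completion)
    (af : ∀ v : HeightOneSpectrum (𝓞 K), v.adicCompletion K)
    (h : ∀ v, af v ∈ v.adicCompletionIntegers K) : Adl426 K :=
  (ai, ⟨af, Filter.Eventually.of_forall h⟩)

theorem pI426_mk (ai : ∀ w : InfinitePlace K, w.Completion)
    (af : ∀ v : HeightOneSpectrum (𝓞 K), v.adicCompletion K)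
    (h : ∀ v, af v ∈ v.adicCompletionIntegers K) (w : InfinitePlace K) :
    pI426 K w (mkAdl426 ai af h) = ai w := rfl

theorem pF426_mk (ai : ∀ w : InfinitePlace K, w.Completion)
    (af : ∀ v : HeightOneSpectrum (𝓞 K), v.adicCompletion K)
    (h : ∀ v, af v ∈ v.adicCompletionIntegers K) (v : HeightOneSpectrum (𝓞 K)) :
    pF426 K v (mkAdl426 ai af h) = af v := rfl

/-- Neighbourhoods of `0` in the product, in local terms. -/
theorem nhds_zero_prod426 {N₀ : Set ((∀ w : InfinitePlace K, w.Completion) ×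
      Πʳ v : HeightOneSpectrum (𝓞 K), [v.adicCompletion K, v.adicCompletionIntegers K])}
    (hN : N₀ ∈ 𝓝 ((0 : ∀ w : InfinitePlace K, w.Completion),
      (0 : Πʳ v : HeightOneSpectrum (𝓞 K), [v.adicCompletion K, v.adicCompletionIntegers K]))) :
    ∃ (B : ∀ w : InfinitePlace K, Set w.Completion) (I : Finset (HeightOneSpectrum (𝓞 K)))
      (N : ∀ v : HeightOneSpectrum (𝓞 K), Set (v.adicCompletion K)),
      (∀ w, B w ∈ 𝓝 (0 : w.Completion)) ∧ (∀ v, N v ∈ 𝓝 (0 : v.adicCompletion K)) ∧
      ∀ x : (∀ w : InfinitePlace K, w.Completion) ×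
          Πʳ v : HeightOneSpectrum (𝓞 K), [v.adicCompletion K, v.adicCompletionIntegers K],
        (∀ w, x.1 w ∈ B w) →
        (∀ v, x.2 v ∈ v.adicCompletionIntegers K) → (∀ v ∈ I, x.2 v ∈ N v) →
        x ∈ N₀ := by
  rw [nhds_prod_eq, Filter.mem_prod_iff] at hN
  obtain ⟨N₁, hN₁, N₂, hN₂, hsub⟩ := hN
  -- infinite part
  rw [nhds_pi, Filter.mem_pi] at hN₁
  obtain ⟨J, -, B, hB, hBsub⟩ := hN₁
  -- finite part
  have hopen : ∀ v : HeightOneSpectrum (𝓞 K),
      IsOpen (v.adicCompletionIntegers K : Set (v.adicCompletion K)) :=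
    fun v => Valued.isOpen_valuationSubring _
  have h0 : (0 : Πʳ v : HeightOneSpectrum (𝓞 K),
      [v.adicCompletion K, v.adicCompletionIntegers K])
      = RestrictedProduct.structureMap (fun v : HeightOneSpectrum (𝓞 K) => v.adicCompletion K)
          (fun v : HeightOneSpectrum (𝓞 K) => (v.adicCompletionIntegers K : Set (v.adicCompletion K)))
          Filter.cofinite (fun v => ⟨0, zero_mem _⟩) := by
    rfl
  rw [h0, RestrictedProduct.nhds_eq_map_structureMap hopen, Filter.mem_map, nhds_pi,
    Filter.mem_pi] at hN₂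
  obtain ⟨I, hI, N', hN', hN'sub⟩ := hN₂
  have hex : ∀ v : HeightOneSpectrum (𝓞 K), ∃ Nv ∈ 𝓝 (0 : v.adicCompletion K),
      (Subtype.val ⁻¹' Nv : Set (v.adicCompletionIntegers K)) ⊆ N' v := by
    intro v
    have := hN' v
    rw [mem_nhds_subtype] at this
    exact this
  choose N hN hNsub using hex
  refine ⟨B, hI.toFinset, N, hB, hN, ?_⟩
  intro x hx1 hx2 hx3
  apply hsub
  refine Set.mem_prod.2 ⟨?_, ?_⟩
  · apply hBsub
    intro w _
    exact hx1 w
  · have hx : x.2 = RestrictedProduct.structureMap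
        (fun v : HeightOneSpectrum (𝓞 K) => v.adicCompletion K)
        (fun v : HeightOneSpectrum (𝓞 K) =>
          (v.adicCompletionIntegers K : Set (v.adicCompletion K)))
        Filter.cofinite (fun v => ⟨x.2 v, hx2 v⟩) := by
      ext v
      rfl
    rw [hx]
    apply hN'sub
    intro v hv
    apply hNsub v
    exact hx3 v (hI.mem_toFinset.2 hv)

/-- Neighbourhoods of `0` in the adele ring, in local terms. -/
theorem nhds_zero_adl426 {N₀ : Set (Adl426 K)} (hN : N₀ ∈ 𝓝 (0 : Adl426 K)) :
    ∃ (B : ∀ w : InfinitePlace K, Set w.Completion) (I : Finset (HeightOneSpectrum (𝓞 K)))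
      (N : ∀ v : HeightOneSpectrum (𝓞 K), Set (v.adicCompletion K)),
      (∀ w, B w ∈ 𝓝 (0 : w.Completion)) ∧ (∀ v, N v ∈ 𝓝 (0 : v.adicCompletion K)) ∧
      ∀ x : Adl426 K, (∀ w, pI426 K w x ∈ B w) →
        (∀ v, pF426 K v x ∈ v.adicCompletionIntegers K) → (∀ v ∈ I, pF426 K v x ∈ N v) →
        x ∈ N₀ :=
  nhds_zero_prod426 hN


/-- The component at `v` of the inverse of an idele. -/
theorem pF426_inv (v : HeightOneSpectrum (𝓞 K)) (u : (Adl426 K)ˣ) :
    pF426 K v ((u⁻¹ : (Adl426 K)ˣ) : Adl426 K) = (pF426 K v (u : Adl426 K))⁻¹ := by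
  have h : pF426 K v (u : Adl426 K) * pF426 K v ((u⁻¹ : (Adl426 K)ˣ) : Adl426 K) = 1 := by
    rw [← map_mul, Units.mul_inv, map_one]
  exact eq_inv_of_mul_eq_one_right h

/-- The component at `w` of the inverse of an idele. -/
theorem pI426_inv (w : InfinitePlace K) (u : (Adl426 K)ˣ) :
    pI426 K w ((u⁻¹ : (Adl426 K)ˣ) : Adl426 K) = (pI426 K w (u : Adl426 K))⁻¹ := by
  have h : pI426 K w (u : Adl426 K) * pI426 K w ((u⁻¹ : (Adl426 K)ˣ) : Adl426 K) = 1 := by
    rw [← map_mul, Units.mul_inv, map_one]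
  exact eq_inv_of_mul_eq_one_right h

/-- The set of integral finite adeles is a neighbourhood of `1` in the adele ring. -/
theorem integral_mem_nhds_one426 :
    {x : Adl426 K | ∀ v, pF426 K v x ∈ v.adicCompletionIntegers K} ∈ 𝓝 (1 : Adl426 K) := by
  have hopen : ∀ v : HeightOneSpectrum (𝓞 K),
      IsOpen (v.adicCompletionIntegers K : Set (v.adicCompletion K)) :=
    fun v => Valued.isOpen_valuationSubring _
  have h1 : IsOpen {f : Πʳ v : HeightOneSpectrum (𝓞 K),
      [v.adicCompletion K, v.adicCompletionIntegers K] | ∀ v, f.1 v ∈ v.adicCompletionIntegers K} :=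
    RestrictedProduct.isOpen_forall_mem hopen
  have h2 : Continuous (fun x : Adl426 K => x.2) := continuous_snd
  have h3 : IsOpen {x : Adl426 K | ∀ v, pF426 K v x ∈ v.adicCompletionIntegers K} :=
    h1.preimage h2
  exact h3.mem_nhds (fun v => by
    rw [map_one]
    exact one_mem _)

end Glob

section Core
variable (K : Type) [Field K] [NumberField K]

/-- The entries of a torus matrix minus the identity, from the local entries. -/
theorem ent_matrix426 (t n : K) {N₀ : Set (Adl426 K)}
    (B : ∀ w : InfinitePlace K, Set w.Completion)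
    (T : ∀ v : HeightOneSpectrum (𝓞 K), Set (v.adicCompletion K))
    (hBT : ∀ x : Adl426 K, (∀ w, pI426 K w x ∈ B w) → (∀ v, pF426 K v x ∈ T v) → x ∈ N₀)
    (p q : Adl426 K)
    (hI : ∀ w, Ent426 (B w) (algebraMap K w.Completion t) (algebraMap K w.Completion n)
      (pI426 K w p) (pI426 K w q))
    (hF : ∀ v, Ent426 (T v) (algebraMap K (v.adicCompletion K) t)
      (algebraMap K (v.adicCompletion K) n) (pF426 K v p) (pF426 K v q))
    (i j : Fin 2) :
    (!![p, -(algebraMap K (Adl426 K) n * q); q, p + algebraMap K (Adl426 K) t * q] :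
        Matrix (Fin 2) (Fin 2) (Adl426 K)) i j
      - (1 : Matrix (Fin 2) (Fin 2) (Adl426 K)) i j ∈ N₀ := by
  apply hBT
  · intro w
    have h := hI w
    fin_cases i <;> fin_cases j
    · simpa [map_sub] using h.1
    · simpa [map_sub, map_neg, map_mul, pI426_algebraMap] using h.2.1
    · simpa [map_sub] using h.2.2.1
    · simpa [map_sub, map_add, map_mul, pI426_algebraMap] using h.2.2.2
  · intro v
    have h := hF v
    fin_cases i <;> fin_cases j
    · simpa [map_sub] using h.1
    · simpa [map_sub, map_neg, map_mul, pF426_algebraMap] using h.2.1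
    · simpa [map_sub] using h.2.2.1
    · simpa [map_sub, map_add, map_mul, pF426_algebraMap] using h.2.2.2

end Core

section Main
variable (K : Type) [Field K] [NumberField K]

/-- The good places of the quadratic form: `v ∤ 2`, `t`, `n` integral, discriminant a unit. -/
def Good426 (t n : K) (v : HeightOneSpectrum (𝓞 K)) : Prop :=
  Valued.v (algebraMap K (v.adicCompletion K) 2) = 1 ∧
  Valued.v (algebraMap K (v.adicCompletion K) t) ≤ 1 ∧
  Valued.v (algebraMap K (v.adicCompletion K) n) ≤ 1 ∧
  Valued.v (algebraMap K (v.adicCompletion K) (t ^ 2 - 4 * n)) = 1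

theorem finite_not_good426 (t n : K) (hd : t ^ 2 - 4 * n ≠ 0) :
    {v : HeightOneSpectrum (𝓞 K) | ¬ Good426 K t n v}.Finite := by
  have h1 := finite_valuation_ne_one426 K (2 : K) two_ne_zero
  have h2 := finite_valuation_not_le_one426 K t
  have h3 := finite_valuation_not_le_one426 K n
  have h4 := finite_valuation_ne_one426 K _ hd
  refine (((h1.union h2).union h3).union h4).subset ?_
  intro v hv
  have hv' : ¬ Good426 K t n v := hv
  unfold Good426 at hv'
  by_cases c1 : Valued.v (algebraMap K (v.adicCompletion K) 2) = 1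
  · by_cases c2 : Valued.v (algebraMap K (v.adicCompletion K) t) ≤ 1
    · by_cases c3 : Valued.v (algebraMap K (v.adicCompletion K) n) ≤ 1
      · right
        intro c4
        exact hv' ⟨c1, c2, c3, c4⟩
      · left; right; exact c3
    · left; left; right; exact c2
  · left; left; left; exact c1

/-- **Openness of the norm of the torus at the identity** (adelic form). -/
theorem torus_open_core426 (t n : K) (hd : t ^ 2 - 4 * n ≠ 0)
    {V : Set (GL (Fin 2) (Adl426 K))} (hV : V ∈ 𝓝 (1 : GL (Fin 2) (Adl426 K))) :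
    ∃ W ∈ 𝓝 (1 : (Adl426 K)ˣ), ∀ u ∈ W, ∃ m ∈ V,
      (∃ a b : Adl426 K, (m : Matrix (Fin 2) (Fin 2) (Adl426 K))
          = !![a, -(algebraMap K (Adl426 K) n * b); b, a + algebraMap K (Adl426 K) t * b]) ∧
      Matrix.GeneralLinearGroup.det m = u := by
  classical
  obtain ⟨N₀, hN₀, hN₀V⟩ := nhds_one_GL426 hV
  obtain ⟨B, I, N, hB, hN, hBN⟩ := nhds_zero_adl426 hN₀
  have hbad := finite_not_good426 K t n hd
  set I' : Finset (HeightOneSpectrum (𝓞 K)) := I ∪ hbad.toFinset with hI'
  set T : ∀ v : HeightOneSpectrum (𝓞 K), Set (v.adicCompletion K) :=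
    fun v => (if v ∈ I then N v else Set.univ) ∩
      (v.adicCompletionIntegers K : Set (v.adicCompletion K)) with hTdef
  have hT : ∀ v, T v ∈ 𝓝 (0 : v.adicCompletion K) := by
    intro v
    refine Filter.inter_mem ?_ ((Valued.isOpen_valuationSubring _).mem_nhds (zero_mem _))
    by_cases hv : v ∈ I
    · simp only [hv, if_true]; exact hN v
    · simp only [hv, if_false]; exact Filter.univ_mem
  have hBT : ∀ x : Adl426 K, (∀ w, pI426 K w x ∈ B w) → (∀ v, pF426 K v x ∈ T v) → x ∈ N₀ := by
    intro x h1 h2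
    refine hBN x h1 (fun v => (h2 v).2) (fun v hv => ?_)
    have := (h2 v).1
    simpa [hv] using this
  have hspF : ∀ v : HeightOneSpectrum (𝓞 K), ∃ Y ∈ 𝓝 (1 : v.adicCompletion K), ∀ u ∈ Y,
      ∃ a b : v.adicCompletion K, LocSol426 (T v) (algebraMap K (v.adicCompletion K) t)
        (algebraMap K (v.adicCompletion K) n) u a b :=
    fun v => locSol_special426 (fun N hN => sq_open_fin426 K v hN) _ _ (hT v)
  choose YF hYF hYFsol using hspF
  have hspI : ∀ w : InfinitePlace K, ∃ Y ∈ 𝓝 (1 : w.Completion), ∀ u ∈ Y,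
      ∃ a b : w.Completion, LocSol426 (B w) (algebraMap K w.Completion t)
        (algebraMap K w.Completion n) u a b :=
    fun w => locSol_special426 (fun N hN => sq_open_inf426 K w hN) _ _ (hB w)
  choose YI hYI hYIsol using hspI
  refine ⟨{u : (Adl426 K)ˣ | (∀ w, pI426 K w (u : Adl426 K) ∈ YI w) ∧
      (∀ v ∈ I', pF426 K v (u : Adl426 K) ∈ YF v) ∧
      (∀ v, pF426 K v (u : Adl426 K) ∈ v.adicCompletionIntegers K) ∧
      (∀ v, pF426 K v ((u⁻¹ : (Adl426 K)ˣ) : Adl426 K) ∈ v.adicCompletionIntegers K)}, ?_, ?_⟩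
  · -- the set is a neighbourhood of `1`
    have c1 : Continuous (fun u : (Adl426 K)ˣ => (u : Adl426 K)) := Units.continuous_val
    have c2 : Continuous (fun u : (Adl426 K)ˣ => ((u⁻¹ : (Adl426 K)ˣ) : Adl426 K)) :=
      Units.continuous_coe_inv
    have s1 : ∀ w : InfinitePlace K,
        {u : (Adl426 K)ˣ | pI426 K w (u : Adl426 K) ∈ YI w} ∈ 𝓝 (1 : (Adl426 K)ˣ) := by
      intro w
      have hc : ContinuousAt (fun u : (Adl426 K)ˣ => pI426 K w (u : Adl426 K)) 1 :=
        ((continuous_pI426 w).comp c1).continuousAt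
      apply hc.preimage_mem_nhds
      simpa using hYI w
    have s2 : ∀ v : HeightOneSpectrum (𝓞 K),
        {u : (Adl426 K)ˣ | pF426 K v (u : Adl426 K) ∈ YF v} ∈ 𝓝 (1 : (Adl426 K)ˣ) := by
      intro v
      have hc : ContinuousAt (fun u : (Adl426 K)ˣ => pF426 K v (u : Adl426 K)) 1 :=
        ((continuous_pF426 v).comp c1).continuousAt
      apply hc.preimage_mem_nhds
      simpa using hYF v
    have s3 : {u : (Adl426 K)ˣ | ∀ v, pF426 K v (u : Adl426 K) ∈ v.adicCompletionIntegers K}
        ∈ 𝓝 (1 : (Adl426 K)ˣ) := by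
      have h := (c1.continuousAt (x := (1 : (Adl426 K)ˣ))).preimage_mem_nhds
        (t := {x : Adl426 K | ∀ v, pF426 K v x ∈ v.adicCompletionIntegers K})
        (by rw [Units.val_one]; exact integral_mem_nhds_one426)
      exact h
    have s4 : {u : (Adl426 K)ˣ | ∀ v, pF426 K v ((u⁻¹ : (Adl426 K)ˣ) : Adl426 K)
        ∈ v.adicCompletionIntegers K} ∈ 𝓝 (1 : (Adl426 K)ˣ) := by
      have h := (c2.continuousAt (x := (1 : (Adl426 K)ˣ))).preimage_mem_nhds
        (t := {x : Adl426 K | ∀ v, pF426 K v x ∈ v.adicCompletionIntegers K})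
        (by rw [inv_one, Units.val_one]; exact integral_mem_nhds_one426)
      exact h
    have s1' : (⋂ w : InfinitePlace K, {u : (Adl426 K)ˣ | pI426 K w (u : Adl426 K) ∈ YI w})
        ∈ 𝓝 (1 : (Adl426 K)ˣ) := (Filter.iInter_mem).2 s1
    have s2' : (⋂ v ∈ I', {u : (Adl426 K)ˣ | pF426 K v (u : Adl426 K) ∈ YF v})
        ∈ 𝓝 (1 : (Adl426 K)ˣ) := (Filter.biInter_finset_mem I').2 (fun v _ => s2 v)
    filter_upwards [s1', s2', s3, s4] with u h1 h2 h3 h4
    refine ⟨fun w => ?_, fun v hv => ?_, h3, h4⟩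
    · exact Set.mem_iInter.1 h1 w
    · exact Set.mem_iInter₂.1 h2 v hv
  · rintro u ⟨hu1, hu2, hu3, hu4⟩
    have hunit : ∀ v, Valued.v (pF426 K v (u : Adl426 K)) = 1 := by
      intro v
      have h3 := (HeightOneSpectrum.mem_adicCompletionIntegers (𝓞 K) K v).1 (hu3 v)
      have h4 := (HeightOneSpectrum.mem_adicCompletionIntegers (𝓞 K) K v).1 (hu4 v)
      rw [pF426_inv, map_inv₀] at h4
      have hne : pF426 K v (u : Adl426 K) ≠ 0 := by
        intro h0
        have h : pF426 K v (u : Adl426 K) * pF426 K v ((u⁻¹ : (Adl426 K)ˣ) : Adl426 K) = 1 := by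
          rw [← map_mul, Units.mul_inv, map_one]
        rw [h0, zero_mul] at h
        exact zero_ne_one h
      have hpos : 0 < Valued.v (pF426 K v (u : Adl426 K)) :=
        zero_lt_iff.2 ((Valuation.ne_zero_iff _).2 hne)
      exact le_antisymm h3 ((inv_le_one₀ hpos).1 h4)
    have hF : ∀ v : HeightOneSpectrum (𝓞 K), ∃ a b : v.adicCompletion K,
        LocSol426 (T v) (algebraMap K (v.adicCompletion K) t)
          (algebraMap K (v.adicCompletion K) n) (pF426 K v (u : Adl426 K)) a b := by
      intro v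
      by_cases hv : v ∈ I'
      · exact hYFsol v _ (hu2 v hv)
      · have hvI : v ∉ I := fun h => hv (Finset.mem_union_left _ h)
        have hgood : Good426 K t n v := by
          by_contra hg
          exact hv (Finset.mem_union_right _ (hbad.mem_toFinset.2 hg))
        obtain ⟨h2, ht, hn, hdv⟩ := hgood
        have h2' : Valued.v (2 : v.adicCompletion K) = 1 := by
          rwa [map_ofNat] at h2
        have hd' : Valued.v ((algebraMap K (v.adicCompletion K) t) ^ 2
            - 4 * algebraMap K (v.adicCompletion K) n) = 1 := by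
          rwa [map_sub, map_mul, map_pow, map_ofNat] at hdv
        obtain ⟨a, b, hab⟩ := locSol_good426 K v _ _ h2' ht hn hd' _ (hunit v)
        have hsub : (v.adicCompletionIntegers K : Set (v.adicCompletion K)) ⊆ T v := by
          intro x hx
          refine Set.mem_inter ?_ hx
          simp only [hvI, if_false, Set.mem_univ]
        exact ⟨a, b, hab.mono hsub⟩
    choose af bf hf using hF
    have hI : ∀ w : InfinitePlace K, ∃ a b : w.Completion,
        LocSol426 (B w) (algebraMap K w.Completion t) (algebraMap K w.Completion n)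
          (pI426 K w (u : Adl426 K)) a b := fun w => hYIsol w _ (hu1 w)
    choose ai bi hi using hI
    have haf : ∀ v, af v ∈ v.adicCompletionIntegers K := by
      intro v
      have h := (hf v).2.1.1.2
      have e : af v = (af v - 1) + 1 := by ring
      rw [e]
      exact add_mem h (one_mem _)
    have hbf : ∀ v, bf v ∈ v.adicCompletionIntegers K := fun v => (hf v).2.1.2.2.1.2
    obtain ⟨a, ha⟩ : ∃ a : Adl426 K, a = mkAdl426 ai af haf := ⟨_, rfl⟩
    obtain ⟨b, hb⟩ : ∃ b : Adl426 K, b = mkAdl426 bi bf hbf := ⟨_, rfl⟩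
    have haI : ∀ w, pI426 K w a = ai w := fun w => by rw [ha, pI426_mk]
    have haF : ∀ v, pF426 K v a = af v := fun v => by rw [ha, pF426_mk]
    have hbI : ∀ w, pI426 K w b = bi w := fun w => by rw [hb, pI426_mk]
    have hbF : ∀ v, pF426 K v b = bf v := fun v => by rw [hb, pF426_mk]
    obtain ⟨ui, hui⟩ : ∃ ui : Adl426 K, ui = ((u⁻¹ : (Adl426 K)ˣ) : Adl426 K) := ⟨_, rfl⟩
    have huu : (u : Adl426 K) * ui = 1 := by rw [hui]; exact Units.mul_inv u
    have huiI : ∀ w, pI426 K w ui = (pI426 K w (u : Adl426 K))⁻¹ := fun w => by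
      rw [hui, pI426_inv]
    have huiF : ∀ v, pF426 K v ui = (pF426 K v (u : Adl426 K))⁻¹ := fun v => by
      rw [hui, pF426_inv]
    have hQ : a * (a + algebraMap K (Adl426 K) t * b) + algebraMap K (Adl426 K) n * b * b
        = (u : Adl426 K) := by
      apply adl_ext426
      · intro w
        rw [map_add, map_mul, map_add, map_mul, map_mul, map_mul, pI426_algebraMap,
          pI426_algebraMap, haI, hbI]
        exact (hi w).1
      · intro v
        rw [map_add, map_mul, map_add, map_mul, map_mul, map_mul, pF426_algebraMap,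
          pF426_algebraMap, haF, hbF]
        exact (hf v).1
    have e1 : (a * (a + algebraMap K (Adl426 K) t * b) + algebraMap K (Adl426 K) n * b * b) * ui
        = 1 := by rw [hQ]; exact huu
    have h12 : (!![a, -(algebraMap K (Adl426 K) n * b); b, a + algebraMap K (Adl426 K) t * b] :
          Matrix (Fin 2) (Fin 2) (Adl426 K))
        * !![(a + algebraMap K (Adl426 K) t * b) * ui,
              -(algebraMap K (Adl426 K) n * (-(b * ui)));
             -(b * ui),
              (a + algebraMap K (Adl426 K) t * b) * ui + algebraMap K (Adl426 K) t * (-(b * ui))]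
        = 1 := by
      ext i j
      fin_cases i <;> fin_cases j
      · simp only [Matrix.mul_apply, Fin.sum_univ_two]
        simp
        linear_combination e1
      · simp only [Matrix.mul_apply, Fin.sum_univ_two]
        simp
        ring
      · simp only [Matrix.mul_apply, Fin.sum_univ_two]
        simp
        ring
      · simp only [Matrix.mul_apply, Fin.sum_univ_two]
        simp
        linear_combination e1
    have h21 : (!![(a + algebraMap K (Adl426 K) t * b) * ui,
              -(algebraMap K (Adl426 K) n * (-(b * ui)));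
             -(b * ui),
              (a + algebraMap K (Adl426 K) t * b) * ui + algebraMap K (Adl426 K) t * (-(b * ui))] :
          Matrix (Fin 2) (Fin 2) (Adl426 K))
        * !![a, -(algebraMap K (Adl426 K) n * b); b, a + algebraMap K (Adl426 K) t * b]
        = 1 := by
      ext i j
      fin_cases i <;> fin_cases j
      · simp only [Matrix.mul_apply, Fin.sum_univ_two]
        simp
        linear_combination e1
      · simp only [Matrix.mul_apply, Fin.sum_univ_two]
        simp
        ring
      · simp only [Matrix.mul_apply, Fin.sum_univ_two]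
        simp
        ring
      · simp only [Matrix.mul_apply, Fin.sum_univ_two]
        simp
        linear_combination e1
    refine ⟨⟨_, _, h12, h21⟩, ?_, ⟨a, b, rfl⟩, ?_⟩
    · apply hN₀V
      · intro i j
        refine ent_matrix426 K t n B T hBT a b (fun w => ?_) (fun v => ?_) i j
        · rw [haI, hbI]; exact (hi w).2.1
        · rw [haF, hbF]; exact (hf v).2.1
      · intro i j
        refine ent_matrix426 K t n B T hBT _ _ (fun w => ?_) (fun v => ?_) i j
        · rw [map_mul, map_add, map_mul, map_neg, map_mul, pI426_algebraMap, haI, hbI, huiI]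
          exact (hi w).2.2
        · rw [map_mul, map_add, map_mul, map_neg, map_mul, pF426_algebraMap, haF, hbF, huiF]
          exact (hf v).2.2
    · apply Units.ext
      rw [Matrix.GeneralLinearGroup.val_det_apply]
      show Matrix.det (!![a, -(algebraMap K (Adl426 K) n * b); b,
        a + algebraMap K (Adl426 K) t * b] : Matrix (Fin 2) (Fin 2) (Adl426 K)) = (u : Adl426 K)
      rw [Matrix.det_fin_two_of]
      linear_combination hQ

end Main

end Fermat.Agent.LT.A2.H426

end
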