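import Fermat.Agent.LT.A2.WeilLocal
import Fermat.Agent.LT.A2.H426.TorusOpenCore

/-!
# Row LT, tower A2, leaf A2.03.2 TORUS-OPEN (helper426): `torusOpenC426 : A2.WL.TorusOpenC`

OFF-MAIN.  UNCONDITIONAL, complete proof of the frozen Prop `Fermat.Agent.LT.A2.WL.TorusOpenC`
(`LT/A2/WeilLocal.lean` of helper950@17cdc7aa9, sha256 47318b3b2f2c1a81).

Reduction to the identity (`torus_open_core426`): `V' = m₀⁻¹ V` is a neighbourhood of `1`, the core
gives a neighbourhood `W` of `1` in the ideles whose elements are norms of torus elements of `V'`,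
and `U = {g | det g · (det m₀)⁻¹ ∈ W}` is a neighbourhood of `g₀` because `det` is continuous.
Only `t² ≠ 4n` is used of the irreducibility hypothesis.
-/

set_option autoImplicit false

open IsDedekindDomain NumberField
open scoped Topology

noncomputable section

namespace Fermat.Agent.LT.A2.H426

open Fermat.Agent.LT.H556 Fermat.Agent.LT.A2

/-- **Leaf A2.03.2 TORUS-OPEN.** -/
theorem torusOpenC426 : Fermat.Agent.LT.A2.WL.TorusOpenC := by
  intro K _ _ t n hirr g₀ m₀ hadm V hV
  have hd : t ^ 2 - 4 * n ≠ 0 := by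
    intro h
    apply hirr (t / 2)
    field_simp
    linear_combination -h
  have hV' : (fun m : A0.G K => m₀ * m) ⁻¹' V ∈ 𝓝 (1 : A0.G K) := by
    have hc : ContinuousAt (fun m : A0.G K => m₀ * m) 1 := (continuous_const_mul m₀).continuousAt
    apply hc.preimage_mem_nhds
    rw [mul_one]
    exact hV
  obtain ⟨W, hW, hWsol⟩ := torus_open_core426 K t n hd hV'
  refine ⟨(fun g : A0.G K => Matrix.GeneralLinearGroup.det g
      * (Matrix.GeneralLinearGroup.det m₀)⁻¹) ⁻¹' W, ?_, ?_⟩
  · have hc : ContinuousAt (fun g : A0.G K => Matrix.GeneralLinearGroup.det g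
        * (Matrix.GeneralLinearGroup.det m₀)⁻¹) g₀ := by
      have h1 : Continuous (Matrix.GeneralLinearGroup.det : A0.G K → (A0.Adl K)ˣ) :=
        Matrix.GeneralLinearGroup.continuous_det
      exact (h1.mul continuous_const).continuousAt
    apply hc.preimage_mem_nhds
    rw [hadm.2, mul_inv_cancel]
    exact hW
  · intro g hg
    obtain ⟨m', hm'V, ⟨a, b, hab⟩, hdet⟩ := hWsol _ hg
    refine ⟨m₀ * m', hm'V, ?_, ?_⟩
    · obtain ⟨a₀, b₀, h₀⟩ := hadm.1
      refine ⟨a₀ * a - algebraMap K (A0.Adl K) n * b₀ * b,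
        a₀ * b + b₀ * a + algebraMap K (A0.Adl K) t * b₀ * b, ?_⟩
      rw [Units.val_mul, h₀, hab]
      unfold torMat
      ext i j
      fin_cases i <;> fin_cases j
      · simp only [Matrix.mul_apply, Fin.sum_univ_two]
        simp
        ring
      · simp only [Matrix.mul_apply, Fin.sum_univ_two]
        simp
        ring
      · simp only [Matrix.mul_apply, Fin.sum_univ_two]
        simp
        ring
      · simp only [Matrix.mul_apply, Fin.sum_univ_two]
        simp
        ring
    · have hdet' : Matrix.GeneralLinearGroup.det m'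
          = Matrix.GeneralLinearGroup.det g * (Matrix.GeneralLinearGroup.det m₀)⁻¹ := hdet
      rw [map_mul, hdet', mul_comm (Matrix.GeneralLinearGroup.det g), ← mul_assoc,
        mul_inv_cancel, one_mul]

end Fermat.Agent.LT.A2.H426

end
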